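import Fermat.Agent.S14.AN2.GDefs
import Fermat.Agent.S14.AN.CosetAux

set_option autoImplicit false

/-!
# [T5] Coset comparison: `∑_{𝓞 K} g - N(J) ∑_J g` is bounded on `(1, 2]`
-/

namespace Fermat.Agent.S14.AN2

open NumberField NumberField.Units NumberField.Units.dirichletUnitTheorem
  NumberField.mixedEmbedding NumberField.InfinitePlace Module
open scoped nonZeroDivisors

noncomputable section

variable (K : Type*) [Field K] [NumberField K]

namespace Coset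

theorem one_le_norm_mixedEmbedding {a : 𝓞 K} (ha : a ≠ 0) :
    1 ≤ mixedEmbedding.norm (mixedEmbedding K (a : K)) := by
  rw [mixedEmbedding.norm_eq_norm]
  have h1 : (Algebra.norm ℚ (a : K)) = ((Algebra.norm ℤ a : ℤ) : ℚ) := by
    rw [Algebra.coe_norm_int]
  rw [h1]
  have h2 : Algebra.norm ℤ a ≠ 0 := by
    rw [Ne, Algebra.norm_eq_zero_iff]
    exact ha
  have h3 : (1 : ℤ) ≤ |Algebra.norm ℤ a| := Int.one_le_abs h2
  have h4 : ((1 : ℤ) : ℝ) ≤ ((|Algebra.norm ℤ a| : ℤ) : ℝ) := by exact_mod_cast h3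
  simpa using h4

theorem gO_le_one {s : ℝ} (hs : 0 < s) (a : 𝓞 K) : gO K s a ≤ 1 := by
  unfold gO g
  by_cases ha : a = 0
  · subst ha
    simp [Real.zero_rpow (neg_ne_zero.mpr hs.ne')]
  · have h1 := one_le_norm_mixedEmbedding K ha
    have h2 : (mixedEmbedding.norm (mixedEmbedding K (a : K))) ^ (-s) ≤ 1 :=
      Real.rpow_le_one_of_one_le_of_nonpos h1 (by linarith)
    have h3 : 0 ≤ (mixedEmbedding.norm (mixedEmbedding K (a : K))) ^ (-s) :=
      Real.rpow_nonneg (mixedEmbedding.norm_nonneg _) _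
    calc phi K _ * _ ≤ 1 * 1 := mul_le_mul (phi_le_one K _) h2 h3 zero_le_one
      _ = 1 := one_mul 1

theorem abs_gO_sub_le_one {s : ℝ} (hs : 0 < s) (a b : 𝓞 K) : |gO K s a - gO K s b| ≤ 1 := by
  have h1 := gO_le_one K hs a
  have h2 := gO_le_one K hs b
  have h3 := gO_nonneg K s a
  have h4 := gO_nonneg K s b
  rw [abs_le]
  constructor <;> linarith

theorem supn_pos {a : 𝓞 K} (ha : a ≠ 0) : 0 < supn K (mixedEmbedding K (a : K)) := by
  classical
  have h : mixedEmbedding K (a : K) ≠ 0 := by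
    intro h0
    apply ha
    have : (a : K) = 0 := (map_eq_zero (mixedEmbedding K)).mp h0
    exact_mod_cast this
  exact norm_pos_iff.mpr h

end Coset

open Coset in
/-- [T5] coset comparison (T3 and T5a enter as hypotheses) -/
theorem coset_compare
    (T3 : ∀ t : mixedSpace K, ∃ C R : ℝ, 0 ≤ C ∧ 1 ≤ R ∧ ∀ (x : mixedSpace K) (s : ℝ),
      R ≤ supn K x → 1 ≤ s → s ≤ 2 →
      |g K s (x + t) - g K s x| ≤ C * supn K x ^ (-((finrank ℚ K : ℝ) + 1)))
    (T5a : Summable fun a : 𝓞 K =>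
      supn K (mixedEmbedding K (a : K)) ^ (-((finrank ℚ K : ℝ) + 1)))
    (J : (Ideal (𝓞 K))⁰) :
    ∃ B : ℝ, ∀ s : ℝ, 1 < s → s ≤ 2 →
      Summable (fun a : 𝓞 K => gO K s a) →
      Summable (fun a : (J : Ideal (𝓞 K)) => gO K s (a : 𝓞 K)) →
      |(∑' a : 𝓞 K, gO K s a) - (Ideal.absNorm (J : Ideal (𝓞 K)) : ℝ) *
          ∑' a : (J : Ideal (𝓞 K)), gO K s (a : 𝓞 K)| ≤ B := by
  classical
  have hJ0 : (J : Ideal (𝓞 K)) ≠ ⊥ := mem_nonZeroDivisors_iff_ne_zero.mp J.2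
  haveI : Finite (𝓞 K ⧸ (J : Ideal (𝓞 K))) := Ideal.finiteQuotientOfFreeOfNeBot _ hJ0
  haveI := Fintype.ofFinite (𝓞 K ⧸ (J : Ideal (𝓞 K)))
  have hcard : (Nat.card (𝓞 K ⧸ (J : Ideal (𝓞 K))) : ℝ) = (Ideal.absNorm (J : Ideal (𝓞 K)) : ℝ) := by
    rw [Ideal.absNorm_apply, Submodule.cardQuot_apply]
  set e : ℝ := -((finrank ℚ K : ℝ) + 1) with he
  choose Cf Rf hC0 hR1 hT3 using T3
  let τ : (𝓞 K ⧸ (J : Ideal (𝓞 K))) → mixedSpace K :=
    fun t => mixedEmbedding K ((Quotient.out t : 𝓞 K) : K)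
  let w : (𝓞 K ⧸ (J : Ideal (𝓞 K))) → ℝ := fun t => Cf (τ t) + Rf (τ t) ^ (-e)
  have hw0 : ∀ t, 0 ≤ w t := fun t =>
    add_nonneg (hC0 _) (Real.rpow_nonneg (by linarith [hR1 (τ t)]) _)
  let C : ℝ := (∑ t, w t) + 1
  have hwC : ∀ t, w t ≤ C := fun t => by
    have := Finset.single_le_sum (f := w) (fun i _ => hw0 i) (Finset.mem_univ t)
    simp only [C]; linarith
  have hC1 : 1 ≤ C := by
    have := Finset.sum_nonneg (s := Finset.univ) (f := w) (fun i _ => hw0 i)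
    simp only [C]; linarith
  let h : 𝓞 K → ℝ := fun a => supn K (mixedEmbedding K (a : K)) ^ e + (if a = 0 then 1 else 0)
  have hh : Summable h := T5a.add (hasSum_ite_eq (0 : 𝓞 K) (1 : ℝ)).summable
  have hh0 : ∀ a, 0 ≤ h a := fun a => by
    have h1 : 0 ≤ supn K (mixedEmbedding K (a : K)) ^ e := Real.rpow_nonneg (supn_nonneg K _) _
    have h2 : (0 : ℝ) ≤ (if a = 0 then 1 else 0) := by split_ifs <;> norm_num
    exact add_nonneg h1 h2
  refine ⟨Nat.card (𝓞 K ⧸ (J : Ideal (𝓞 K))) * (C * ∑' a, h a), fun s hs1 hs2 hg _ => ?_⟩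
  rw [abs_sub_comm, ← hcard]
  refine Fermat.Agent.S14.AN.CosetAux.abs_card_mul_tsum_sub_tsum_le (J : Ideal (𝓞 K))
    (fun a => gO K s a) h C hg hh hh0 (by linarith) ?_
  intro t a
  have hs0 : 0 < s := by linarith
  by_cases ha : (a : 𝓞 K) = 0
  · have h1 := abs_gO_sub_le_one K hs0 ((a : 𝓞 K) + Quotient.out t) (a : 𝓞 K)
    have h2 : 1 ≤ h (a : 𝓞 K) := by
      have : 0 ≤ supn K (mixedEmbedding K ((a : 𝓞 K) : K)) ^ e :=
        Real.rpow_nonneg (supn_nonneg K _) _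
      simp only [h, if_pos ha]; linarith
    calc _ ≤ (1 : ℝ) := h1
      _ = 1 * 1 := (one_mul 1).symm
      _ ≤ C * h (a : 𝓞 K) := mul_le_mul hC1 h2 zero_le_one (by linarith)
  · have hpos := supn_pos K ha
    have hha : h (a : 𝓞 K) = supn K (mixedEmbedding K ((a : 𝓞 K) : K)) ^ e := by
      simp only [h, if_neg ha, add_zero]
    have hpe : 0 < supn K (mixedEmbedding K ((a : 𝓞 K) : K)) ^ e := Real.rpow_pos_of_pos hpos _
    rw [hha]
    have hwt : w t * supn K (mixedEmbedding K ((a : 𝓞 K) : K)) ^ e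
        ≤ C * supn K (mixedEmbedding K ((a : 𝓞 K) : K)) ^ e :=
      mul_le_mul_of_nonneg_right (hwC t) hpe.le
    refine le_trans ?_ hwt
    by_cases hR : Rf (τ t) ≤ supn K (mixedEmbedding K ((a : 𝓞 K) : K))
    · have h3 := hT3 (τ t) (mixedEmbedding K ((a : 𝓞 K) : K)) s hR hs1.le hs2
      have h4 : gO K s ((a : 𝓞 K) + Quotient.out t)
          = g K s (mixedEmbedding K ((a : 𝓞 K) : K) + τ t) := by
        simp only [gO, τ]
        rw [← map_add]
        congr 2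
      have h5 : Cf (τ t) ≤ w t := by
        have : 0 ≤ Rf (τ t) ^ (-e) := Real.rpow_nonneg (by linarith [hR1 (τ t)]) _
        simp only [w]; linarith
      calc |gO K s ((a : 𝓞 K) + Quotient.out t) - gO K s (a : 𝓞 K)|
          = |g K s (mixedEmbedding K ((a : 𝓞 K) : K) + τ t)
              - g K s (mixedEmbedding K ((a : 𝓞 K) : K))| := by rw [h4]; rfl
        _ ≤ Cf (τ t) * supn K (mixedEmbedding K ((a : 𝓞 K) : K)) ^ e := h3
        _ ≤ w t * supn K (mixedEmbedding K ((a : 𝓞 K) : K)) ^ e :=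
            mul_le_mul_of_nonneg_right h5 hpe.le
    · push_neg at hR
      have h1 := abs_gO_sub_le_one K hs0 ((a : 𝓞 K) + Quotient.out t) (a : 𝓞 K)
      have hne : 0 ≤ -e := by
        have : (0 : ℝ) ≤ (finrank ℚ K : ℝ) := Nat.cast_nonneg _
        simp only [he]; linarith
      have h6 : supn K (mixedEmbedding K ((a : 𝓞 K) : K)) ^ (-e) ≤ Rf (τ t) ^ (-e) :=
        Real.rpow_le_rpow hpos.le hR.le hne
      have h7 : supn K (mixedEmbedding K ((a : 𝓞 K) : K)) ^ (-e)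
          * supn K (mixedEmbedding K ((a : 𝓞 K) : K)) ^ e = 1 := by
        rw [← Real.rpow_add hpos]; simp
      have h8 : Rf (τ t) ^ (-e) ≤ w t := by
        simp only [w]; linarith [hC0 (τ t)]
      calc _ ≤ (1 : ℝ) := h1
        _ = supn K (mixedEmbedding K ((a : 𝓞 K) : K)) ^ (-e)
          * supn K (mixedEmbedding K ((a : 𝓞 K) : K)) ^ e := h7.symm
        _ ≤ w t * supn K (mixedEmbedding K ((a : 𝓞 K) : K)) ^ e :=
            mul_le_mul_of_nonneg_right (h6.trans h8) hpe.le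

end

end Fermat.Agent.S14.AN2
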