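import Fermat.Agent.S14.AN2.GDefs

set_option autoImplicit false

/-!
# [T5a] `∑_{a ∈ 𝓞 K} ‖a‖^(-(n+1))` converges
-/

namespace Fermat.Agent.S14.AN2

open NumberField NumberField.Units NumberField.Units.dirichletUnitTheorem
  NumberField.mixedEmbedding NumberField.InfinitePlace Module
open scoped nonZeroDivisors

noncomputable section

variable (K : Type*) [Field K] [NumberField K]

/-- the embedding of `𝓞 K` in the integer lattice -/
def toLat (a : 𝓞 K) : mixedEmbedding.integerLattice K :=
  ⟨mixedEmbedding K (a : K), ⟨a, rfl⟩⟩

theorem toLat_injective : Function.Injective (toLat K) := by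
  intro a b h
  have h1 : mixedEmbedding K (a : K) = mixedEmbedding K (b : K) := congrArg Subtype.val h
  exact RingOfIntegers.ext (mixedEmbedding_injective K h1)

open scoped Classical in
theorem supn_def (x : mixedSpace K) : supn K x = ‖x‖ := rfl

open scoped Classical in
theorem finrank_integerLattice :
    finrank ℤ (mixedEmbedding.integerLattice K) = finrank ℚ K := by
  rw [ZLattice.rank ℝ, mixedEmbedding.finrank]

open scoped Classical in
theorem summable_norm_lat :
    Summable fun z : mixedEmbedding.integerLattice K =>
      ‖(z : mixedSpace K)‖ ^ (-((finrank ℚ K : ℝ) + 1)) :=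
  ZLattice.summable_norm_rpow (mixedEmbedding.integerLattice K)
    (-((finrank ℚ K : ℝ) + 1)) (by rw [finrank_integerLattice]; linarith)

/-- [T5a] lattice summability -/
theorem summable_supn_rpow :
    Summable fun a : 𝓞 K => supn K (mixedEmbedding K (a : K)) ^ (-((finrank ℚ K : ℝ) + 1)) := by
  have h := (summable_norm_lat K).comp_injective (toLat_injective K)
  refine h.congr fun a => ?_
  rw [supn_def]
  rfl

end

end Fermat.Agent.S14.AN2
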