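import Fermat.Agent.S14.AN2.GDefs

set_option autoImplicit false

/-!
# [T3] The translation estimate `|g s (x + t) - g s x| ≤ C ‖x‖^(-(n+1))`
-/

namespace Fermat.Agent.S14.AN2

open NumberField NumberField.Units NumberField.Units.dirichletUnitTheorem
  NumberField.mixedEmbedding NumberField.InfinitePlace Module
  NumberField.mixedEmbedding.fundamentalCone
open scoped nonZeroDivisors

noncomputable section

variable (K : Type*) [Field K] [NumberField K]

/-- logarithmic coordinates -/
def la (x : mixedSpace K) : InfinitePlace K → ℝ := fun w => Real.log (normAtPlace w x)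

theorem Ssum_la {x : mixedSpace K} (hx : mixedEmbedding.norm x ≠ 0) :
    Ssum K (la K x) = Real.log (mixedEmbedding.norm x) := by
  rw [mixedEmbedding.norm_apply, Real.log_prod]
  · simp [Ssum, la, Real.log_pow]
  · intro w _
    exact pow_ne_zero _ (mixedEmbedding.norm_ne_zero_iff.mp hx w)

theorem logMap_eq_ell {x : mixedSpace K} (hx : mixedEmbedding.norm x ≠ 0) :
    logMap x = ell K (la K x) := by
  ext w
  rw [logMap_apply, ell, Ssum_la K hx]
  rfl

theorem g_eq_gg {x : mixedSpace K} (hx : mixedEmbedding.norm x ≠ 0) (s : ℝ) :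
    g K s x = gg K s (la K x) := by
  unfold g gg phi
  rw [← logMap_eq_ell K hx, Ssum_la K hx,
    Real.rpow_def_of_pos (lt_of_le_of_ne (mixedEmbedding.norm_nonneg x) hx.symm)]
  congr 2
  ring

theorem abs_log_sub_log_le {a b m : ℝ} (hm : 0 < m) (ha : m ≤ a) (hb : m ≤ b) :
    |Real.log a - Real.log b| ≤ |a - b| / m := by
  have ha0 : 0 < a := hm.trans_le ha
  have hb0 : 0 < b := hm.trans_le hb
  have key : ∀ {a b : ℝ}, 0 < a → 0 < b → m ≤ b → Real.log a - Real.log b ≤ |a - b| / m := by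
    intro a b ha0 hb0 hb
    rw [← Real.log_div ha0.ne' hb0.ne']
    calc Real.log (a / b) ≤ a / b - 1 := Real.log_le_sub_one_of_pos (div_pos ha0 hb0)
      _ = (a - b) / b := by field_simp
      _ ≤ |a - b| / b := by gcongr; exact le_abs_self _
      _ ≤ |a - b| / m := by gcongr
  rw [abs_le]
  constructor
  · have := key hb0 ha0 ha
    rw [abs_sub_comm] at this
    linarith
  · exact key ha0 hb0 hb

theorem abs_normAtPlace_sub_le (w : InfinitePlace K) (x y : mixedSpace K) :
    |normAtPlace w y - normAtPlace w x| ≤ normAtPlace w (y - x) := by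
  have h1 := normAtPlace_add_le w x (y - x)
  have h2 := normAtPlace_add_le w y (-(y - x))
  rw [normAtPlace_neg] at h2
  rw [show x + (y - x) = y by abel] at h1
  rw [show y + -(y - x) = x by abel] at h2
  rw [abs_le]
  constructor <;> linarith

/-- the constant of the one-sided estimate -/
def C4 (ρ : ℝ) : ℝ :=
  C3 K * (2 * ρ * Real.exp (2 * c1 K)) * Real.exp (2 * (finrank ℚ K : ℝ) * c1 K)

theorem C4_nonneg {ρ : ℝ} (hρ : 0 ≤ ρ) : 0 ≤ C4 K ρ := by
  have := C3_nonneg K
  unfold C4
  positivity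

theorem one_sided {x y : mixedSpace K} {ρ s : ℝ} (hx : mixedEmbedding.norm x ≠ 0)
    (hphi : phi K x ≠ 0) (hρ : 0 ≤ ρ) (hxy : ∀ w, normAtPlace w (y - x) ≤ ρ)
    (hM : (2 * ρ + 1) * Real.exp (2 * c1 K) ≤ supn K x) (hs1 : 1 ≤ s) (hs2 : s ≤ 2) :
    |g K s y - g K s x| ≤ C4 K ρ * supn K x ^ (-((finrank ℚ K : ℝ) + 1)) := by
  have hn := finrank_pos' K
  have hc1 := c1_nonneg K
  set M := supn K x with hMdef
  set E := Real.exp (2 * c1 K) with hE
  have hE1 : 1 ≤ E := Real.one_le_exp (by positivity)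
  have hE0 : 0 < E := Real.exp_pos _
  have hEM : E ≤ M := by
    refine le_trans ?_ hM
    nlinarith
  have hM0 : 0 < M := hE0.trans_le hEM
  have hpos : ∀ w, 0 < normAtPlace w x := fun w =>
    lt_of_le_of_ne (normAtPlace_nonneg w x) (mixedEmbedding.norm_ne_zero_iff.mp hx w).symm
  have hsupp : ∀ w, |la K x w - Ssum K (la K x) * (finrank ℚ K : ℝ)⁻¹| ≤ c1 K := fun w =>
    support_bound K (by rw [← logMap_eq_ell K hx]; exact hphi) w
  obtain ⟨w', hw'⟩ := exists_normAtPlace_eq_supn K x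
  have haw' : la K x w' = Real.log M := by rw [la, hw']
  have h1 : ∀ w, Real.log M - 2 * c1 K ≤ la K x w := by
    intro w
    have e1 := abs_le.mp (hsupp w)
    have e2 := abs_le.mp (hsupp w')
    rw [haw'] at e2
    linarith [e1.1, e2.2]
  have hEinv : Real.exp (-(2 * c1 K)) = E⁻¹ := by rw [Real.exp_neg]
  have h2 : ∀ w, M * E⁻¹ ≤ normAtPlace w x := by
    intro w
    have : Real.exp (Real.log M - 2 * c1 K) ≤ Real.exp (la K x w) := Real.exp_le_exp.mpr (h1 w)
    rw [la, Real.exp_log (hpos w), sub_eq_add_neg, Real.exp_add, Real.exp_log hM0, hEinv] at this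
    exact this
  set m := M * E⁻¹ / 2 with hm
  have hm0 : 0 < m := by positivity
  have hρm : ρ ≤ m := by
    have : (2 * ρ + 1) ≤ M * E⁻¹ := by
      rw [← div_eq_mul_inv, le_div_iff₀ hE0]
      exact hM
    rw [hm]
    linarith
  have h3x : ∀ w, m ≤ normAtPlace w x := by
    intro w
    have := h2 w
    rw [hm]
    have h0 : 0 < M * E⁻¹ := by positivity
    linarith
  have h3 : ∀ w, m ≤ normAtPlace w y := by
    intro w
    have e1 := (abs_le.mp ((abs_normAtPlace_sub_le K w x y).trans (hxy w))).1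
    have e2 := h2 w
    have : M * E⁻¹ = 2 * m := by rw [hm]; ring
    linarith
  have hy : mixedEmbedding.norm y ≠ 0 :=
    mixedEmbedding.norm_ne_zero_iff.mpr fun w => (hm0.trans_le (h3 w)).ne'
  have h4 : ∀ w, |la K x w - la K y w| ≤ ρ / m := by
    intro w
    refine (abs_log_sub_log_le hm0 (h3x w) (h3 w)).trans ?_
    gcongr
    rw [abs_sub_comm]
    exact (abs_normAtPlace_sub_le K w x y).trans (hxy w)
  have hδ1 : ρ / m ≤ 1 := (div_le_one hm0).mpr hρm
  have hlip := lipschitz_bound K h4 hδ1 (by linarith) hs2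
  rw [g_eq_gg K hx, g_eq_gg K hy, abs_sub_comm]
  refine hlip.trans ?_
  have hlogM : 2 * c1 K ≤ Real.log M := by
    rw [← Real.log_exp (2 * c1 K)]
    exact Real.log_le_log hE0 hEM
  have hS : (finrank ℚ K : ℝ) * (Real.log M - 2 * c1 K) ≤ Ssum K (la K x) := by
    unfold Ssum
    rw [← sum_mult_eq', Finset.sum_mul]
    refine Finset.sum_le_sum fun w _ => ?_
    exact mul_le_mul_of_nonneg_left (h1 w) (Nat.cast_nonneg _)
  have hS0 : 0 ≤ Ssum K (la K x) := le_trans (by
    have : 0 ≤ Real.log M - 2 * c1 K := by linarith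
    positivity) hS
  have hexp : Real.exp (-s * Ssum K (la K x)) ≤
      Real.exp (2 * (finrank ℚ K : ℝ) * c1 K) * Real.exp (-((finrank ℚ K : ℝ) * Real.log M)) := by
    rw [← Real.exp_add]
    apply Real.exp_le_exp.mpr
    nlinarith
  have hδ : ρ / m = 2 * ρ * E * Real.exp (-Real.log M) := by
    rw [Real.exp_neg, Real.exp_log hM0, hm]
    field_simp
  have hpow : M ^ (-((finrank ℚ K : ℝ) + 1)) =
      Real.exp (-Real.log M) * Real.exp (-((finrank ℚ K : ℝ) * Real.log M)) := by
    rw [Real.rpow_def_of_pos hM0, ← Real.exp_add]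
    congr 1
    ring
  have hC3 := C3_nonneg K
  calc C3 K * (ρ / m) * Real.exp (-s * Ssum K (la K x))
      ≤ C3 K * (ρ / m) * (Real.exp (2 * (finrank ℚ K : ℝ) * c1 K) *
          Real.exp (-((finrank ℚ K : ℝ) * Real.log M))) := by
        refine mul_le_mul_of_nonneg_left hexp ?_
        positivity
    _ = C4 K ρ * M ^ (-((finrank ℚ K : ℝ) + 1)) := by
        rw [hδ, hpow, C4]
        ring

theorem g_eq_zero_of {x : mixedSpace K} {s : ℝ} (hs : s ≠ 0)
    (h : ¬ (mixedEmbedding.norm x ≠ 0 ∧ phi K x ≠ 0)) : g K s x = 0 := by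
  unfold g
  by_cases hx : mixedEmbedding.norm x = 0
  · rw [hx, Real.zero_rpow (neg_ne_zero.mpr hs), mul_zero]
  · have : phi K x = 0 := by
      by_contra hp
      exact h ⟨hx, hp⟩
    rw [this, zero_mul]

/-- [T3] translation estimate -/
theorem translation_estimate (t : mixedSpace K) :
    ∃ C R : ℝ, 0 ≤ C ∧ 1 ≤ R ∧ ∀ (x : mixedSpace K) (s : ℝ), R ≤ supn K x → 1 ≤ s → s ≤ 2 →
      |g K s (x + t) - g K s x| ≤ C * supn K x ^ (-((finrank ℚ K : ℝ) + 1)) := by
  have hn := finrank_pos' K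
  have hc1 := c1_nonneg K
  set ρ := supn K t with hρdef
  have hρ : 0 ≤ ρ := supn_nonneg K t
  set R0 := (2 * ρ + 1) * Real.exp (2 * c1 K) with hR0def
  have hE1 : 1 ≤ Real.exp (2 * c1 K) := Real.one_le_exp (by positivity)
  have hR0 : 2 * ρ + 1 ≤ R0 := by
    rw [hR0def]
    nlinarith
  have hC4 := C4_nonneg K hρ
  have h2pow : (1 : ℝ) ≤ 2 ^ ((finrank ℚ K : ℝ) + 1) :=
    Real.one_le_rpow (by norm_num) (by positivity)
  refine ⟨C4 K ρ * 2 ^ ((finrank ℚ K : ℝ) + 1), 2 * R0, by positivity, by linarith, ?_⟩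
  intro x s hx hs1 hs2
  have hs0 : s ≠ 0 := by linarith
  have hMpos : 0 < supn K x := by linarith
  have hMpow : 0 ≤ supn K x ^ (-((finrank ℚ K : ℝ) + 1)) := Real.rpow_nonneg hMpos.le _
  by_cases h : mixedEmbedding.norm x ≠ 0 ∧ phi K x ≠ 0
  · have := one_sided K h.1 h.2 hρ (y := x + t)
      (fun w => by rw [add_sub_cancel_left]; exact normAtPlace_le_supn K w t)
      (by linarith) hs1 hs2
    refine this.trans ?_
    refine mul_le_mul_of_nonneg_right ?_ hMpow
    nlinarith
  · rw [g_eq_zero_of K hs0 h, sub_zero]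
    by_cases h' : mixedEmbedding.norm (x + t) ≠ 0 ∧ phi K (x + t) ≠ 0
    · have hsup : supn K x / 2 ≤ supn K (x + t) := by
        have := supn_add_le K (x + t) (-t)
        rw [supn_neg, add_neg_cancel_right] at this
        linarith
      have := one_sided K h'.1 h'.2 hρ (y := x)
        (fun w => by
          rw [show x - (x + t) = -t by abel, normAtPlace_neg]
          exact normAtPlace_le_supn K w t)
        (by linarith) hs1 hs2
      rw [g_eq_zero_of K hs0 h, zero_sub, abs_neg] at this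
      refine this.trans ?_
      rw [mul_assoc]
      refine mul_le_mul_of_nonneg_left ?_ hC4
      calc supn K (x + t) ^ (-((finrank ℚ K : ℝ) + 1))
          ≤ (supn K x / 2) ^ (-((finrank ℚ K : ℝ) + 1)) :=
            Real.rpow_le_rpow_of_nonpos (by positivity) hsup (by linarith)
        _ = 2 ^ ((finrank ℚ K : ℝ) + 1) * supn K x ^ (-((finrank ℚ K : ℝ) + 1)) := by
            rw [Real.div_rpow hMpos.le (by norm_num), Real.rpow_neg (by norm_num : (0:ℝ) ≤ 2),
              div_inv_eq_mul, mul_comm]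
    · rw [g_eq_zero_of K hs0 h', abs_zero]
      positivity

end

end Fermat.Agent.S14.AN2
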