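import Fermat.Agent.S14.AN2.Unfold
import Fermat.Agent.S14.AN2.Coset
import Fermat.Agent.S14.AN2.LatSummable
import Fermat.Agent.S14.AN2.Translate
import Fermat.Agent.S14.AN.Basic

set_option autoImplicit false

/-!
# [T6] Partial zeta functions differ by `O(1)`; `L(s, ψ)` is bounded on `(1, 2]` for `ψ ≠ 1`
-/

namespace Fermat.Agent.S14.AN2

open NumberField NumberField.Units NumberField.Units.dirichletUnitTheorem
  NumberField.mixedEmbedding NumberField.InfinitePlace Module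
open scoped nonZeroDivisors

noncomputable section

section general

variable (K : Type*) [Field K] [NumberField K]

theorem partialZeta_nonneg (C : ClassGroup (𝓞 K)) (s : ℝ) : 0 ≤ partialZeta K C s :=
  tsum_nonneg fun _ => Real.rpow_nonneg (Nat.cast_nonneg _) _

theorem partialZeta_le {s : ℝ} (hsum : Summable fun I : (Ideal (𝓞 K))⁰ =>
      ((Ideal.absNorm (I : Ideal (𝓞 K)) : ℝ)) ^ (-s)) (C : ClassGroup (𝓞 K)) :
    partialZeta K C s ≤ ∑' I : (Ideal (𝓞 K))⁰, ((Ideal.absNorm (I : Ideal (𝓞 K)) : ℝ)) ^ (-s) :=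
  tsum_comp_le_tsum_of_inj hsum (fun _ => Real.rpow_nonneg (Nat.cast_nonneg _) _)
    Subtype.val_injective

/-- the unit ideal is everything -/
def oneEquiv : (((1 : (Ideal (𝓞 K))⁰) : Ideal (𝓞 K))) ≃ 𝓞 K where
  toFun a := a.1
  invFun a := ⟨a, by simp [Ideal.one_eq_top]⟩
  left_inv _ := rfl
  right_inv _ := rfl

theorem hasSum_gO_univ (hsum : ∀ s : ℝ, 1 < s → Summable fun I : (Ideal (𝓞 K))⁰ =>
      ((Ideal.absNorm (I : Ideal (𝓞 K)) : ℝ)) ^ (-s)) (s : ℝ) (hs : 1 < s) :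
    HasSum (fun a : 𝓞 K => gO K s a) ((torsionOrder K : ℝ) * partialZeta K 1 s) := by
  have h := unfolding K hsum 1 1 (by simp) s hs
  have h1 : ((Ideal.absNorm ((1 : (Ideal (𝓞 K))⁰) : Ideal (𝓞 K)) : ℝ)) ^ (-s) = 1 := by
    simp [Ideal.one_eq_top]
  rw [h1, mul_one] at h
  exact ((oneEquiv K).hasSum_iff (f := fun a : 𝓞 K => gO K s a)).mp h

theorem partialZeta_sub_one_bounded (hsum : ∀ s : ℝ, 1 < s → Summable fun I : (Ideal (𝓞 K))⁰ =>
      ((Ideal.absNorm (I : Ideal (𝓞 K)) : ℝ)) ^ (-s))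
    (hz : ∃ c : ℝ, 0 < c ∧ ∀ s : ℝ, 1 < s → s ≤ 2 →
      ∑' I : (Ideal (𝓞 K))⁰, ((Ideal.absNorm (I : Ideal (𝓞 K)) : ℝ)) ^ (-s) ≤ c / (s - 1))
    (C : ClassGroup (𝓞 K)) :
    ∃ B : ℝ, ∀ s : ℝ, 1 < s → s ≤ 2 → |partialZeta K C s - partialZeta K 1 s| ≤ B := by
  obtain ⟨J, hJ⟩ := ClassGroup.mk0_surjective C⁻¹
  obtain ⟨c, hc, hzc⟩ := hz
  obtain ⟨B, hB⟩ := coset_compare K (translation_estimate K) (summable_supn_rpow K) J
  set N : ℝ := (Ideal.absNorm (J : Ideal (𝓞 K)) : ℝ) with hN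
  have hN1 : 1 ≤ N := by
    have : Ideal.absNorm (J : Ideal (𝓞 K)) ≠ 0 := by
      rw [ne_eq, Ideal.absNorm_eq_zero_iff]
      exact mem_nonZeroDivisors_iff_ne_zero.mp J.2
    rw [hN]
    exact_mod_cast Nat.one_le_iff_ne_zero.mpr this
  have hN0 : 0 < N := by linarith
  have hw1 : (1 : ℝ) ≤ (torsionOrder K : ℝ) := by
    exact_mod_cast Nat.one_le_iff_ne_zero.mpr (torsionOrder_ne_zero K)
  refine ⟨B + c * Real.log N, fun s hs hs2 => ?_⟩
  have hO := hasSum_gO_univ K hsum s hs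
  have hJs := unfolding K hsum C J hJ s hs
  have hb := hB s hs hs2 hO.summable hJs.summable
  rw [hO.tsum_eq, hJs.tsum_eq] at hb
  set θ : ℝ := N ^ (1 - s) with hθ
  have hθeq : N * N ^ (-s) = θ := by
    rw [hθ, show 1 - s = 1 + -s by ring, Real.rpow_add hN0, Real.rpow_one]
  set ζC := partialZeta K C s with hζC
  set ζ1 := partialZeta K 1 s with hζ1
  have hζC0 : 0 ≤ ζC := partialZeta_nonneg K C s
  have hζCle : ζC ≤ c / (s - 1) := (partialZeta_le K (hsum s hs) C).trans (hzc s hs hs2)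
  have hb' : (torsionOrder K : ℝ) * |ζ1 - θ * ζC| ≤ B := by
    have : (torsionOrder K : ℝ) * ζ1 - N * ((torsionOrder K : ℝ) * N ^ (-s) * ζC) =
        (torsionOrder K : ℝ) * (ζ1 - θ * ζC) := by
      rw [← hθeq]
      ring
    rw [this, abs_mul, abs_of_nonneg (by linarith)] at hb
    exact hb
  have hb'' : |ζ1 - θ * ζC| ≤ B := by
    refine le_trans ?_ hb'
    have := abs_nonneg (ζ1 - θ * ζC)
    nlinarith
  have hθ1 : θ ≤ 1 := Real.rpow_le_one_of_one_le_of_nonpos hN1 (by linarith)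
  have hθlow : 1 - (s - 1) * Real.log N ≤ θ := by
    rw [hθ, Real.rpow_def_of_pos hN0]
    have := Real.add_one_le_exp (Real.log N * (1 - s))
    linarith
  have hlogN : 0 ≤ Real.log N := Real.log_nonneg hN1
  have hs1 : 0 < s - 1 := by linarith
  have hlast : (1 - θ) * ζC ≤ c * Real.log N := by
    calc (1 - θ) * ζC ≤ ((s - 1) * Real.log N) * (c / (s - 1)) := by
          apply mul_le_mul (by linarith) hζCle hζC0 (by positivity)
      _ = c * Real.log N := by field_simp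
  have hlast0 : 0 ≤ (1 - θ) * ζC := mul_nonneg (by linarith) hζC0
  have hdecomp : ζC - ζ1 = -(ζ1 - θ * ζC) + (1 - θ) * ζC := by ring
  rw [hdecomp]
  refine (abs_add_le _ _).trans ?_
  rw [abs_neg, abs_of_nonneg hlast0]
  linarith

theorem partialZeta_sub_bounded' (hsum : ∀ s : ℝ, 1 < s → Summable fun I : (Ideal (𝓞 K))⁰ =>
      ((Ideal.absNorm (I : Ideal (𝓞 K)) : ℝ)) ^ (-s))
    (hz : ∃ c : ℝ, 0 < c ∧ ∀ s : ℝ, 1 < s → s ≤ 2 →
      ∑' I : (Ideal (𝓞 K))⁰, ((Ideal.absNorm (I : Ideal (𝓞 K)) : ℝ)) ^ (-s) ≤ c / (s - 1))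
    (C C' : ClassGroup (𝓞 K)) :
    ∃ B : ℝ, ∀ s : ℝ, 1 < s → s ≤ 2 → |partialZeta K C s - partialZeta K C' s| ≤ B := by
  obtain ⟨B, hB⟩ := partialZeta_sub_one_bounded K hsum hz C
  obtain ⟨B', hB'⟩ := partialZeta_sub_one_bounded K hsum hz C'
  refine ⟨B + B', fun s hs hs2 => ?_⟩
  have h1 := hB s hs hs2
  have h2 := hB' s hs hs2
  have : partialZeta K C s - partialZeta K C' s =
      (partialZeta K C s - partialZeta K 1 s) - (partialZeta K C' s - partialZeta K 1 s) := by ring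
  rw [this]
  exact (abs_sub _ _).trans (add_le_add h1 h2)

end general

section final

variable (F : Type) [Field F] [NumberField F]

theorem hsumF : ∀ s : ℝ, 1 < s → Summable fun I : (Ideal (𝓞 F))⁰ =>
    ((Ideal.absNorm (I : Ideal (𝓞 F)) : ℝ)) ^ (-s) :=
  fun s hs => Fermat.Agent.S14.summable_absNorm_rpow F s hs

theorem hzF : ∃ c : ℝ, 0 < c ∧ ∀ s : ℝ, 1 < s → s ≤ 2 →
    ∑' I : (Ideal (𝓞 F))⁰, ((Ideal.absNorm (I : Ideal (𝓞 F)) : ℝ)) ^ (-s) ≤ c / (s - 1) := by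
  obtain ⟨c, c', -, hc', h⟩ := Fermat.Agent.S14.zetaR_bounds F
  exact ⟨c', hc', fun s hs hs2 => (h s hs hs2).2⟩

/-- the partial zeta functions of two ideal classes differ by a bounded function on `(1, 2]` -/
theorem partialZeta_sub_bounded (C C' : ClassGroup (𝓞 F)) :
    ∃ B : ℝ, ∀ s : ℝ, 1 < s → s ≤ 2 → |partialZeta F C s - partialZeta F C' s| ≤ B :=
  partialZeta_sub_bounded' F (hsumF F) (hzF F) C C'

theorem norm_chr' (ψ : ClassGroup (𝓞 F) →* ℂˣ) (C : ClassGroup (𝓞 F)) :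
    ‖((ψ C : ℂˣ) : ℂ)‖ = 1 := by
  have h : (ψ C) ^ Fintype.card (ClassGroup (𝓞 F)) = 1 := by
    rw [← map_pow, pow_card_eq_one, map_one]
  have h' : ((ψ C : ℂˣ) : ℂ) ^ Fintype.card (ClassGroup (𝓞 F)) = 1 := by
    rw [← Units.val_pow_eq_pow_val, h, Units.val_one]
  exact Complex.norm_eq_one_of_pow_eq_one h' Fintype.card_ne_zero

theorem Lfun_eq_sum (ψ : ClassGroup (𝓞 F) →* ℂˣ) (s : ℝ) (hs : 1 < s) :
    AN.Lfun F ψ s =
      ∑ C : ClassGroup (𝓞 F), ((ψ C : ℂˣ) : ℂ) * ((partialZeta F C s : ℝ) : ℂ) := by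
  set f : (Ideal (𝓞 F))⁰ → ℂ := fun I => AN.chr F ψ I * (AN.nrm F s I : ℂ) with hf
  have hfs : Summable f := by
    refine Summable.of_norm ?_
    refine (hsumF F s hs).congr fun I => ?_
    rw [hf]
    simp only [norm_mul, AN.chr, norm_chr', one_mul, Complex.norm_real, AN.nrm]
    rw [Real.norm_of_nonneg (Real.rpow_nonneg (Nat.cast_nonneg _) _)]
  set e := Equiv.sigmaFiberEquiv (fun I : (Ideal (𝓞 F))⁰ => ClassGroup.mk0 I) with he
  have h1 : AN.Lfun F ψ s = ∑' p, f (e p) := (e.tsum_eq f).symm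
  have hfe : Summable fun p => f (e p) := (e.summable_iff (f := f)).mpr hfs
  rw [h1, hfe.tsum_sigma, tsum_fintype]
  refine Finset.sum_congr rfl fun C _ => ?_
  unfold partialZeta
  rw [Complex.ofReal_tsum, ← tsum_mul_left]
  refine tsum_congr fun I => ?_
  have : e ⟨C, I⟩ = I.1 := rfl
  rw [this, hf]
  simp only [AN.chr, AN.nrm, I.2]

theorem sum_chr_eq_zero (ψ : ClassGroup (𝓞 F) →* ℂˣ) (hψ : ψ ≠ 1) :
    ∑ C : ClassGroup (𝓞 F), ((ψ C : ℂˣ) : ℂ) = 0 := by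
  have := sum_hom_units_eq_zero ((Units.coeHom ℂ).comp ψ) (by
    intro h
    apply hψ
    ext C
    have := DFunLike.congr_fun h C
    simpa using this)
  simpa using this

/-- **Boundedness of `L(s, ψ)`** on `(1, 2]` for a nontrivial class group character. -/
theorem Lfun_bounded (ψ : ClassGroup (𝓞 F) →* ℂˣ) (hψ : ψ ≠ 1) :
    ∃ B : ℝ, ∀ s : ℝ, 1 < s → s ≤ 2 → ‖AN.Lfun F ψ s‖ ≤ B := by
  choose B hB using fun C : ClassGroup (𝓞 F) => partialZeta_sub_bounded F C 1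
  refine ⟨∑ C, B C, fun s hs hs2 => ?_⟩
  have h0 : AN.Lfun F ψ s = ∑ C : ClassGroup (𝓞 F), ((ψ C : ℂˣ) : ℂ) *
      (((partialZeta F C s - partialZeta F 1 s : ℝ)) : ℂ) := by
    rw [Lfun_eq_sum F ψ s hs]
    have : ∑ C : ClassGroup (𝓞 F), ((ψ C : ℂˣ) : ℂ) *
        (((partialZeta F C s - partialZeta F 1 s : ℝ)) : ℂ) =
        ∑ C : ClassGroup (𝓞 F), ((ψ C : ℂˣ) : ℂ) * ((partialZeta F C s : ℝ) : ℂ) -
        (∑ C : ClassGroup (𝓞 F), ((ψ C : ℂˣ) : ℂ)) * ((partialZeta F 1 s : ℝ) : ℂ) := by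
      rw [Finset.sum_mul, ← Finset.sum_sub_distrib]
      refine Finset.sum_congr rfl fun C _ => ?_
      push_cast
      ring
    rw [this, sum_chr_eq_zero F ψ hψ, zero_mul, sub_zero]
  rw [h0]
  refine (norm_sum_le _ _).trans (Finset.sum_le_sum fun C _ => ?_)
  rw [norm_mul, norm_chr', one_mul, Complex.norm_real, Real.norm_eq_abs]
  exact hB C s hs hs2

end final

end

end Fermat.Agent.S14.AN2
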