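import Fermat.Agent.S14.AN2.Rho

set_option autoImplicit false

/-!
# Estimates in logarithmic coordinates
-/

namespace Fermat.Agent.S14.AN2

open NumberField NumberField.Units NumberField.Units.dirichletUnitTheorem
  NumberField.mixedEmbedding NumberField.InfinitePlace Module

noncomputable section

theorem abs_exp_sub_one_le' (u : ℝ) : |Real.exp u - 1| ≤ |u| * Real.exp |u| := by
  have h1 : u + 1 ≤ Real.exp u := Real.add_one_le_exp u
  have h2 : -u + 1 ≤ Real.exp (-u) := Real.add_one_le_exp (-u)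
  have h3 : 1 ≤ Real.exp |u| := Real.one_le_exp (abs_nonneg u)
  rw [abs_le]
  constructor
  · have : -|u| ≤ u := neg_abs_le u
    nlinarith [abs_nonneg u]
  · -- exp u - 1 ≤ u * exp u
    have h4 : Real.exp u - 1 ≤ u * Real.exp u := by
      have h5 : Real.exp u * Real.exp (-u) = 1 := by rw [← Real.exp_add]; simp
      nlinarith [Real.exp_pos u, Real.exp_pos (-u)]
    rcases le_total 0 u with hu | hu
    · rw [abs_of_nonneg hu]; exact h4
    · have : Real.exp u ≤ 1 := Real.exp_le_one_iff.mpr hu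
      nlinarith [abs_nonneg u]

variable (K : Type*) [Field K] [NumberField K]

/-- logarithm of the norm, in logarithmic coordinates -/
def Ssum (a : InfinitePlace K → ℝ) : ℝ := ∑ w, (mult w : ℝ) * a w

/-- `logMap` in logarithmic coordinates -/
def ell (a : InfinitePlace K → ℝ) : logSpace K := fun w =>
  mult w.val * (a w.val - Ssum K a * (finrank ℚ K : ℝ)⁻¹)

/-- the function `g` in logarithmic coordinates -/
def gg (s : ℝ) (a : InfinitePlace K → ℝ) : ℝ := rho K (ell K a) * Real.exp (-s * Ssum K a)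

theorem finrank_pos' : (0 : ℝ) < (finrank ℚ K : ℝ) := Nat.cast_pos.mpr finrank_pos

theorem sum_mult_eq' : ∑ w : InfinitePlace K, (mult w : ℝ) = (finrank ℚ K : ℝ) := by
  rw [← Nat.cast_sum, sum_mult_eq]

theorem one_le_mult (w : InfinitePlace K) : (1 : ℝ) ≤ (mult w : ℝ) := by
  have : 1 ≤ mult w := Nat.one_le_iff_ne_zero.mpr mult_ne_zero
  exact_mod_cast this

theorem mult_le_two (w : InfinitePlace K) : (mult w : ℝ) ≤ 2 := by
  have : mult w ≤ 2 := by unfold mult; split_ifs <;> norm_num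
  exact_mod_cast this

/-- the constant controlling the shape of the support -/
def c1 : ℝ := (Fintype.card (InfinitePlace K) : ℝ) * c0 K

theorem c1_nonneg : 0 ≤ c1 K := mul_nonneg (Nat.cast_nonneg _) (c0_nonneg K)

theorem c0_le_c1 : c0 K ≤ c1 K := by
  have h : (1 : ℝ) ≤ (Fintype.card (InfinitePlace K) : ℝ) := by
    exact_mod_cast Fintype.card_pos
  calc c0 K = 1 * c0 K := (one_mul _).symm
    _ ≤ _ := mul_le_mul_of_nonneg_right h (c0_nonneg K)

theorem support_bound {a : InfinitePlace K → ℝ} (ha : rho K (ell K a) ≠ 0) (w : InfinitePlace K) :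
    |a w - Ssum K a * (finrank ℚ K : ℝ)⁻¹| ≤ c1 K := by
  classical
  set A := Ssum K a * (finrank ℚ K : ℝ)⁻¹ with hA
  have hell : ∀ v : {w : InfinitePlace K // w ≠ w₀}, |(mult v.val : ℝ) * (a v.val - A)| ≤ c0 K :=
    fun v => rho_support K ha v
  by_cases hw : w = w₀
  · subst hw
    have hsum : ∑ v : InfinitePlace K, (mult v : ℝ) * (a v - A) = 0 := by
      simp_rw [mul_sub]
      rw [Finset.sum_sub_distrib, ← Finset.sum_mul, sum_mult_eq', hA]
      have := (finrank_pos' K).ne'
      unfold Ssum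
      field_simp
      ring
    rw [Fintype.sum_eq_add_sum_subtype_ne _ w₀] at hsum
    have h1 : |(mult (w₀ : InfinitePlace K) : ℝ) * (a w₀ - A)| ≤ c1 K := by
      have : (mult (w₀ : InfinitePlace K) : ℝ) * (a w₀ - A)
          = - ∑ v : {w : InfinitePlace K // w ≠ w₀}, (mult v.val : ℝ) * (a v.val - A) := by
        linarith
      rw [this, abs_neg]
      refine (Finset.abs_sum_le_sum_abs _ _).trans ?_
      refine (Finset.sum_le_sum fun v _ => hell v).trans ?_
      rw [Finset.sum_const, nsmul_eq_mul, c1]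
      refine mul_le_mul_of_nonneg_right ?_ (c0_nonneg K)
      rw [Finset.card_univ]
      exact_mod_cast Fintype.card_subtype_le _
    rw [abs_mul, abs_of_nonneg (by positivity)] at h1
    calc |a w₀ - A| ≤ (mult (w₀ : InfinitePlace K) : ℝ) * |a w₀ - A| :=
          le_mul_of_one_le_left (abs_nonneg _) (one_le_mult K _)
      _ ≤ _ := h1
  · have h1 := hell ⟨w, hw⟩
    rw [abs_mul, abs_of_nonneg (by positivity)] at h1
    calc |a w - A| ≤ (mult w : ℝ) * |a w - A| :=
          le_mul_of_one_le_left (abs_nonneg _) (one_le_mult K _)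
      _ ≤ c0 K := h1
      _ ≤ _ := c0_le_c1 K

theorem abs_Ssum_sub_le {a a' : InfinitePlace K → ℝ} {δ : ℝ} (h : ∀ w, |a w - a' w| ≤ δ) :
    |Ssum K a - Ssum K a'| ≤ (finrank ℚ K : ℝ) * δ := by
  unfold Ssum
  rw [← Finset.sum_sub_distrib, ← sum_mult_eq', Finset.sum_mul]
  refine (Finset.abs_sum_le_sum_abs _ _).trans (Finset.sum_le_sum fun w _ => ?_)
  rw [← mul_sub, abs_mul, abs_of_nonneg (by positivity)]
  exact mul_le_mul_of_nonneg_left (h w) (by positivity)

theorem abs_ell_sub_le {a a' : InfinitePlace K → ℝ} {δ : ℝ} (h : ∀ w, |a w - a' w| ≤ δ)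
    (w : {w : InfinitePlace K // w ≠ w₀}) : |ell K a w - ell K a' w| ≤ 4 * δ := by
  have hδ : 0 ≤ δ := (abs_nonneg _).trans (h w.val)
  unfold ell
  rw [← mul_sub, abs_mul, abs_of_nonneg (by positivity)]
  have h1 : |a w.val - Ssum K a * (finrank ℚ K : ℝ)⁻¹ - (a' w.val - Ssum K a' * (finrank ℚ K : ℝ)⁻¹)|
      ≤ 2 * δ := by
    have e : a w.val - Ssum K a * (finrank ℚ K : ℝ)⁻¹ - (a' w.val - Ssum K a' * (finrank ℚ K : ℝ)⁻¹)
        = (a w.val - a' w.val) - (Ssum K a - Ssum K a') * (finrank ℚ K : ℝ)⁻¹ := by ring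
    rw [e]
    refine (abs_sub _ _).trans ?_
    rw [abs_mul, abs_of_nonneg (inv_nonneg.mpr (finrank_pos' K).le)]
    have h2 : |Ssum K a - Ssum K a'| * (finrank ℚ K : ℝ)⁻¹ ≤ δ := by
      rw [← div_eq_mul_inv, div_le_iff₀ (finrank_pos' K), mul_comm]
      exact abs_Ssum_sub_le K h
    linarith [h w.val]
  calc (mult w.val : ℝ) * _ ≤ 2 * (2 * δ) :=
        mul_le_mul (mult_le_two K _) h1 (abs_nonneg _) (by norm_num)
    _ = 4 * δ := by ring

/-- the Lipschitz constant of `gg` -/
def C3 : ℝ := 4 * L0 K + 2 * (finrank ℚ K : ℝ) * Real.exp (2 * (finrank ℚ K : ℝ))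

theorem C3_nonneg : 0 ≤ C3 K := by
  have := L0_nonneg K
  unfold C3
  positivity

theorem lipschitz_bound {a a' : InfinitePlace K → ℝ} {δ s : ℝ} (h : ∀ w, |a w - a' w| ≤ δ)
    (hδ1 : δ ≤ 1) (hs0 : 0 ≤ s) (hs2 : s ≤ 2) :
    |gg K s a - gg K s a'| ≤ C3 K * δ * Real.exp (-s * Ssum K a) := by
  have hδ : 0 ≤ δ := (abs_nonneg _).trans (h w₀)
  have hn := finrank_pos' K
  set n : ℝ := (finrank ℚ K : ℝ) with hndef
  unfold gg
  have e : rho K (ell K a) * Real.exp (-s * Ssum K a) - rho K (ell K a') * Real.exp (-s * Ssum K a')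
      = (rho K (ell K a) - rho K (ell K a')) * Real.exp (-s * Ssum K a)
        - rho K (ell K a') * (Real.exp (-s * Ssum K a) *
            (Real.exp (s * (Ssum K a - Ssum K a')) - 1)) := by
    have : Real.exp (-s * Ssum K a) * Real.exp (s * (Ssum K a - Ssum K a'))
        = Real.exp (-s * Ssum K a') := by
      rw [← Real.exp_add]; congr 1; ring
    rw [mul_sub, this]; ring
  rw [e]
  refine (abs_sub _ _).trans ?_
  have hE := Real.exp_pos (-s * Ssum K a)
  have t1 : |(rho K (ell K a) - rho K (ell K a')) * Real.exp (-s * Ssum K a)|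
      ≤ (4 * L0 K) * δ * Real.exp (-s * Ssum K a) := by
    rw [abs_mul, abs_of_pos hE]
    refine mul_le_mul_of_nonneg_right ?_ hE.le
    calc _ ≤ L0 K * (4 * δ) := rho_lipschitz K (abs_ell_sub_le K h)
      _ = _ := by ring
  have t2 : |rho K (ell K a') * (Real.exp (-s * Ssum K a) *
            (Real.exp (s * (Ssum K a - Ssum K a')) - 1))|
      ≤ (2 * n * Real.exp (2 * n)) * δ * Real.exp (-s * Ssum K a) := by
    rw [abs_mul, abs_mul, abs_of_pos hE, abs_of_nonneg (rho_nonneg K _)]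
    have hu : |s * (Ssum K a - Ssum K a')| ≤ 2 * n * δ := by
      rw [abs_mul, abs_of_nonneg hs0]
      calc s * |Ssum K a - Ssum K a'| ≤ 2 * (n * δ) :=
            mul_le_mul hs2 (abs_Ssum_sub_le K h) (abs_nonneg _) (by norm_num)
        _ = _ := by ring
    have hu' : |s * (Ssum K a - Ssum K a')| ≤ 2 * n := by
      refine hu.trans ?_
      calc 2 * n * δ ≤ 2 * n * 1 := mul_le_mul_of_nonneg_left hδ1 (by positivity)
        _ = 2 * n := mul_one _
    have h3 : |Real.exp (s * (Ssum K a - Ssum K a')) - 1| ≤ (2 * n * δ) * Real.exp (2 * n) := by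
      refine (abs_exp_sub_one_le' _).trans ?_
      exact mul_le_mul hu (Real.exp_le_exp.mpr hu') (Real.exp_pos _).le (by positivity)
    calc rho K (ell K a') * (Real.exp (-s * Ssum K a) * |Real.exp (s * (Ssum K a - Ssum K a')) - 1|)
        ≤ 1 * (Real.exp (-s * Ssum K a) * ((2 * n * δ) * Real.exp (2 * n))) := by
          refine mul_le_mul (rho_le_one K _) ?_ (by positivity) zero_le_one
          exact mul_le_mul_of_nonneg_left h3 hE.le
      _ = _ := by ring
  calc _ ≤ (4 * L0 K) * δ * Real.exp (-s * Ssum K a)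
        + (2 * n * Real.exp (2 * n)) * δ * Real.exp (-s * Ssum K a) := add_le_add t1 t2
    _ = _ := by unfold C3; ring

end

end Fermat.Agent.S14.AN2
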