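import Fermat.Agent.S14.AN2.Abstract

set_option autoImplicit false

/-!
# The smoothed summand `g s x = phi x * N(x)^(-s)` on the mixed space
-/

namespace Fermat.Agent.S14.AN2

open NumberField NumberField.Units NumberField.Units.dirichletUnitTheorem
  NumberField.mixedEmbedding NumberField.InfinitePlace Module
open scoped nonZeroDivisors

noncomputable section

variable (K : Type*) [Field K] [NumberField K]

/-- the partition of unity on the mixed space -/
def phi (x : mixedSpace K) : ℝ := rho K (logMap x)

theorem phi_nonneg (x : mixedSpace K) : 0 ≤ phi K x := rho_nonneg K _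

theorem phi_le_one (x : mixedSpace K) : phi K x ≤ 1 := rho_le_one K _

theorem hasSum_phi_units {x : mixedSpace K} (hx : mixedEmbedding.norm x ≠ 0) :
    HasSum (fun u : (𝓞 K)ˣ => phi K (u • x)) (torsionOrder K) := by
  have := hasSum_rho_units K (logMap x)
  simpa only [phi, logMap_unit_smul _ hx] using this

/-- the smoothed summand -/
def g (s : ℝ) (x : mixedSpace K) : ℝ := phi K x * (mixedEmbedding.norm x) ^ (-s)

theorem g_nonneg (s : ℝ) (x : mixedSpace K) : 0 ≤ g K s x :=
  mul_nonneg (phi_nonneg K x) (Real.rpow_nonneg (mixedEmbedding.norm_nonneg x) _)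

/-- `g` at an algebraic integer -/
def gO (s : ℝ) (a : 𝓞 K) : ℝ := g K s (mixedEmbedding K (a : K))

theorem gO_nonneg (s : ℝ) (a : 𝓞 K) : 0 ≤ gO K s a := g_nonneg K s _

/-- the partial zeta function of an ideal class -/
def partialZeta (C : ClassGroup (𝓞 K)) (s : ℝ) : ℝ :=
  ∑' I : {I : (Ideal (𝓞 K))⁰ // ClassGroup.mk0 I = C},
    ((Ideal.absNorm (I.1 : Ideal (𝓞 K)) : ℝ)) ^ (-s)

open scoped Classical in
/-- the sup norm on the mixed space (packaged to hide the classical instances) -/
def supn (x : mixedSpace K) : ℝ := ‖x‖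

theorem supn_nonneg (x : mixedSpace K) : 0 ≤ supn K x := by
  classical
  exact norm_nonneg _

theorem supn_eq_sup' (x : mixedSpace K) :
    supn K x = Finset.univ.sup' Finset.univ_nonempty fun w => normAtPlace w x := by
  classical
  exact norm_eq_sup'_normAtPlace x

theorem normAtPlace_le_supn (w : InfinitePlace K) (x : mixedSpace K) :
    normAtPlace w x ≤ supn K x := by
  rw [supn_eq_sup']
  exact Finset.le_sup' (fun w => normAtPlace w x) (Finset.mem_univ w)

theorem exists_normAtPlace_eq_supn (x : mixedSpace K) :
    ∃ w : InfinitePlace K, normAtPlace w x = supn K x := by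
  rw [supn_eq_sup']
  obtain ⟨w, -, hw⟩ := Finset.exists_mem_eq_sup' Finset.univ_nonempty
    (fun w : InfinitePlace K => normAtPlace w x)
  exact ⟨w, hw.symm⟩

theorem supn_add_le (x y : mixedSpace K) : supn K (x + y) ≤ supn K x + supn K y := by
  classical
  exact norm_add_le _ _

theorem supn_neg (x : mixedSpace K) : supn K (-x) = supn K x := by
  classical
  exact norm_neg _

end

end Fermat.Agent.S14.AN2
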