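import Fermat.Agent.S14.AN2.Tent

set_option autoImplicit false

/-!
# A Lipschitz partition of unity for the action of the units on the mixed space
-/

namespace Fermat.Agent.S14.AN2

open NumberField NumberField.Units NumberField.Units.dirichletUnitTheorem
  NumberField.mixedEmbedding NumberField.InfinitePlace Module

noncomputable section

variable (K : Type*) [Field K] [NumberField K]

/-- the real basis of `logSpace K` given by a fundamental system of units -/
def logBasis : Basis (Fin (rank K)) ℝ (logSpace K) :=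
  basisOfIsMaxRank (isMaxRank_fundSystem K)

theorem logBasis_apply (i : Fin (rank K)) :
    logBasis K i = logEmbedding K (Additive.ofMul (fundSystem K i)) :=
  basisOfIsMaxRank_apply _ i

/-- the bump function on `logSpace K` -/
def rho (h : logSpace K) : ℝ := rhoPi (fun i => (logBasis K).repr h i)

theorem rho_nonneg (h : logSpace K) : 0 ≤ rho K h := rhoPi_nonneg _

theorem rho_le_one (h : logSpace K) : rho K h ≤ 1 := rhoPi_le_one _

/-- units = torsion × ℤ^r -/
def unitsEquiv : torsion K × (Fin (rank K) → ℤ) ≃ (𝓞 K)ˣ :=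
  Equiv.ofBijective (fun ζe => (ζe.1 : (𝓞 K)ˣ) * ∏ i, (fundSystem K i) ^ (ζe.2 i)) (by
    constructor
    · intro a b hab
      obtain ⟨c, -, hc⟩ := exist_unique_eq_mul_prod K ((a.1 : (𝓞 K)ˣ) * ∏ i, (fundSystem K i) ^ (a.2 i))
      rw [hc a rfl, hc b hab]
    · intro x
      obtain ⟨c, hc, -⟩ := exist_unique_eq_mul_prod K x
      exact ⟨c, hc.symm⟩)

theorem logEmbedding_unitsEquiv (ζe : torsion K × (Fin (rank K) → ℤ)) :
    logEmbedding K (Additive.ofMul (unitsEquiv K ζe)) = ∑ i, ((ζe.2 i : ℤ) : ℝ) • logBasis K i := by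
  have h1 : logEmbedding K (Additive.ofMul (ζe.1 : (𝓞 K)ˣ)) = 0 :=
    (logEmbedding_eq_zero_iff).mpr ζe.1.2
  have h2 : unitsEquiv K ζe = (ζe.1 : (𝓞 K)ˣ) * ∏ i, (fundSystem K i) ^ (ζe.2 i) := rfl
  rw [h2, ofMul_mul, map_add, h1, zero_add, ofMul_prod, map_sum]
  refine Finset.sum_congr rfl fun i _ => ?_
  rw [ofMul_zpow, map_zsmul, logBasis_apply, Int.cast_smul_eq_zsmul ℝ]

theorem rho_unitsEquiv (ζe : torsion K × (Fin (rank K) → ℤ)) (h : logSpace K) :
    rho K (logEmbedding K (Additive.ofMul (unitsEquiv K ζe)) + h)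
      = rhoPi (fun i => (logBasis K).repr h i + (ζe.2 i : ℤ)) := by
  unfold rho
  congr 1
  funext i
  rw [logEmbedding_unitsEquiv, map_add, Finsupp.add_apply, Basis.repr_sum_self, add_comm]

theorem hasSum_rho_units (h : logSpace K) :
    HasSum (fun u : (𝓞 K)ˣ => rho K (logEmbedding K (Additive.ofMul u) + h)) (torsionOrder K) := by
  have h3 := hasSum_prod_finite (T := torsion K) (hasSum_rhoPi (fun i => (logBasis K).repr h i))
    (fun _ => rhoPi_nonneg _)
  rw [mul_one] at h3
  have h5 : ((fun u : (𝓞 K)ˣ => rho K (logEmbedding K (Additive.ofMul u) + h)) ∘ (unitsEquiv K))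
      = (fun x : torsion K × (Fin (rank K) → ℤ) =>
        rhoPi (fun i => (logBasis K).repr h i + (x.2 i : ℤ))) := by
    funext ζe
    rw [Function.comp_apply, rho_unitsEquiv]
  rw [← h5] at h3
  exact (unitsEquiv K).hasSum_iff.mp h3

end

end Fermat.Agent.S14.AN2
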