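import Fermat.Agent.S14.AN2.Phi

set_option autoImplicit false

/-!
# Support and Lipschitz bounds for `rho`
-/

namespace Fermat.Agent.S14.AN2

open NumberField NumberField.Units NumberField.Units.dirichletUnitTheorem
  NumberField.mixedEmbedding NumberField.InfinitePlace Module

noncomputable section

variable (K : Type*) [Field K] [NumberField K]

open scoped Classical in
/-- bound for the support of `rho` -/
def c0 : ℝ := ∑ i, ∑ w, |logBasis K i w|

theorem c0_nonneg : 0 ≤ c0 K := by
  classical
  exact Finset.sum_nonneg fun _ _ => Finset.sum_nonneg fun _ _ => abs_nonneg _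

theorem rho_support {h : logSpace K} (hh : rho K h ≠ 0) (w : {w : InfinitePlace K // w ≠ w₀}) :
    |h w| ≤ c0 K := by
  classical
  have h1 : ∀ i, |(logBasis K).repr h i| < 1 := fun i => abs_lt_one_of_rhoPi_ne_zero hh i
  have h2 : h w = ∑ i, (logBasis K).repr h i * logBasis K i w := by
    conv_lhs => rw [← (logBasis K).sum_repr h]
    simp [Finset.sum_apply]
  rw [h2, c0]
  refine (Finset.abs_sum_le_sum_abs _ _).trans (Finset.sum_le_sum fun i _ => ?_)
  rw [abs_mul]
  calc |(logBasis K).repr h i| * |logBasis K i w| ≤ 1 * |logBasis K i w| :=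
        mul_le_mul_of_nonneg_right (h1 i).le (abs_nonneg _)
    _ = |logBasis K i w| := one_mul _
    _ ≤ ∑ w, |logBasis K i w| :=
        Finset.single_le_sum (f := fun w => |logBasis K i w|) (fun _ _ => abs_nonneg _)
          (Finset.mem_univ w)

open scoped Classical in
/-- Lipschitz constant of `rho` -/
def L0 : ℝ := ∑ i, ∑ w, |(logBasis K).repr (Pi.single w 1) i|

theorem L0_nonneg : 0 ≤ L0 K := by
  classical
  exact Finset.sum_nonneg fun _ _ => Finset.sum_nonneg fun _ _ => abs_nonneg _

theorem rho_lipschitz {h h' : logSpace K} {δ : ℝ} (hδ : ∀ w, |h w - h' w| ≤ δ) :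
    |rho K h - rho K h'| ≤ L0 K * δ := by
  classical
  unfold rho
  refine (abs_rhoPi_sub_le _ _).trans ?_
  rw [L0, Finset.sum_mul]
  refine Finset.sum_le_sum fun i _ => ?_
  have h1 : (logBasis K).repr h i - (logBasis K).repr h' i
      = ∑ w, (h w - h' w) * (logBasis K).repr (Pi.single w 1) i := by
    have h2 : h - h' = ∑ w, (h w - h' w) • (Pi.single w 1 : logSpace K) := by
      funext v
      simp [Finset.sum_apply, Pi.single_apply]
    rw [← Finsupp.sub_apply, ← map_sub, h2, map_sum, Finsupp.finset_sum_apply]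
    simp
  rw [h1, Finset.sum_mul]
  refine (Finset.abs_sum_le_sum_abs _ _).trans (Finset.sum_le_sum fun w _ => ?_)
  rw [abs_mul, mul_comm]
  exact mul_le_mul_of_nonneg_left (hδ w) (abs_nonneg _)

end

end Fermat.Agent.S14.AN2
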