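import Mathlib

set_option autoImplicit false

/-!
# The tent function and the associated partition of unity on `ι → ℝ`
-/

namespace Fermat.Agent.S14.AN2

noncomputable section

/-- the tent function -/
def tent (t : ℝ) : ℝ := max 0 (1 - |t|)

theorem tent_nonneg (t : ℝ) : 0 ≤ tent t := le_max_left _ _

theorem tent_le_one (t : ℝ) : tent t ≤ 1 := by
  unfold tent
  exact max_le zero_le_one (by linarith [abs_nonneg t])

theorem tent_eq_zero {t : ℝ} (ht : 1 ≤ |t|) : tent t = 0 := by
  unfold tent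
  exact max_eq_left (by linarith)

theorem abs_lt_one_of_tent_ne_zero {t : ℝ} (ht : tent t ≠ 0) : |t| < 1 := by
  by_contra h
  exact ht (tent_eq_zero (not_lt.mp h))

theorem tent_of_abs_le {t : ℝ} (ht : |t| ≤ 1) : tent t = 1 - |t| := by
  unfold tent
  exact max_eq_right (by linarith)

theorem abs_tent_sub_le (a b : ℝ) : |tent a - tent b| ≤ |a - b| := by
  unfold tent
  refine (abs_max_sub_max_le_max 0 (1 - |a|) 0 (1 - |b|)).trans ?_
  have : (1 - |a|) - (1 - |b|) = |b| - |a| := by ring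
  rw [this, sub_self, abs_zero]
  refine max_le (abs_nonneg _) ?_
  calc |(|b| - |a|)| ≤ |b - a| := abs_abs_sub_abs_le_abs_sub b a
    _ = |a - b| := abs_sub_comm b a

theorem hasSum_tent (t : ℝ) : HasSum (fun k : ℤ => tent (t + k)) 1 := by
  have hfl := Int.floor_le t
  have hlt := Int.lt_floor_add_one t
  set m : ℤ := ⌊t⌋ with hm
  have h0 : ∀ k : ℤ, k ∉ ({-m, -m - 1} : Finset ℤ) → tent (t + k) = 0 := by
    intro k hk
    simp only [Finset.mem_insert, Finset.mem_singleton, not_or] at hk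
    apply tent_eq_zero
    rcases lt_trichotomy k (-m - 1) with h | h | h
    · have : (k : ℝ) ≤ -m - 2 := by
        have : k ≤ -m - 2 := by omega
        exact_mod_cast this
      rw [le_abs]; right; linarith
    · exact absurd h hk.2
    · have : (-m + 1 : ℝ) ≤ k := by
        have : -m + 1 ≤ k := by
          have := hk.1
          omega
        exact_mod_cast this
      rw [le_abs]; left; linarith
  have : HasSum (fun k : ℤ => tent (t + k)) (∑ k ∈ ({-m, -m - 1} : Finset ℤ), tent (t + k)) :=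
    hasSum_sum_of_ne_finset_zero h0
  convert this using 1
  rw [Finset.sum_pair (by omega)]
  have h1 : tent (t + ((-m : ℤ) : ℝ)) = 1 - (t - m) := by
    rw [tent_of_abs_le]
    · rw [abs_of_nonneg] <;> push_cast <;> linarith
    · rw [abs_le]; push_cast; constructor <;> linarith
  have h2 : tent (t + ((-m - 1 : ℤ) : ℝ)) = t - m := by
    rw [tent_of_abs_le]
    · rw [abs_of_nonpos] <;> push_cast <;> linarith
    · rw [abs_le]; push_cast; constructor <;> linarith
  rw [h1, h2]; ring

variable {ι : Type*} [Fintype ι]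

/-- product of tent functions -/
def rhoPi (x : ι → ℝ) : ℝ := ∏ i, tent (x i)

theorem rhoPi_nonneg (x : ι → ℝ) : 0 ≤ rhoPi x := Finset.prod_nonneg fun _ _ => tent_nonneg _

theorem rhoPi_le_one (x : ι → ℝ) : rhoPi x ≤ 1 :=
  Finset.prod_le_one (fun _ _ => tent_nonneg _) (fun _ _ => tent_le_one _)

theorem abs_lt_one_of_rhoPi_ne_zero {x : ι → ℝ} (hx : rhoPi x ≠ 0) (i : ι) : |x i| < 1 := by
  apply abs_lt_one_of_tent_ne_zero
  intro h
  exact hx (Finset.prod_eq_zero (Finset.mem_univ i) h)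

omit [Fintype ι] in
theorem abs_prod_sub_prod_le (s : Finset ι) (a b : ι → ℝ) (ha : ∀ i, 0 ≤ a i ∧ a i ≤ 1)
    (hb : ∀ i, 0 ≤ b i ∧ b i ≤ 1) :
    |∏ i ∈ s, a i - ∏ i ∈ s, b i| ≤ ∑ i ∈ s, |a i - b i| := by
  classical
  induction s using Finset.induction_on with
  | empty => simp
  | insert j s hj ih =>
    rw [Finset.prod_insert hj, Finset.prod_insert hj, Finset.sum_insert hj]
    have hA : 0 ≤ ∏ i ∈ s, a i ∧ ∏ i ∈ s, a i ≤ 1 :=
      ⟨Finset.prod_nonneg fun i _ => (ha i).1,
        Finset.prod_le_one (fun i _ => (ha i).1) (fun i _ => (ha i).2)⟩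
    have e : a j * ∏ i ∈ s, a i - b j * ∏ i ∈ s, b i
        = (a j - b j) * ∏ i ∈ s, a i + b j * (∏ i ∈ s, a i - ∏ i ∈ s, b i) := by ring
    rw [e]
    refine (abs_add_le _ _).trans ?_
    rw [abs_mul, abs_mul]
    have h1 : |a j - b j| * |∏ i ∈ s, a i| ≤ |a j - b j| := by
      rw [abs_of_nonneg hA.1]
      exact mul_le_of_le_one_right (abs_nonneg _) hA.2
    have h2 : |b j| * |∏ i ∈ s, a i - ∏ i ∈ s, b i| ≤ ∑ i ∈ s, |a i - b i| := by
      rw [abs_of_nonneg (hb j).1]
      exact (mul_le_of_le_one_left (abs_nonneg _) (hb j).2).trans ih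
    linarith

theorem abs_rhoPi_sub_le (x y : ι → ℝ) : |rhoPi x - rhoPi y| ≤ ∑ i, |x i - y i| := by
  unfold rhoPi
  refine (abs_prod_sub_prod_le Finset.univ _ _ (fun i => ⟨tent_nonneg _, tent_le_one _⟩)
    (fun i => ⟨tent_nonneg _, tent_le_one _⟩)).trans ?_
  exact Finset.sum_le_sum fun i _ => abs_tent_sub_le _ _

theorem hasSum_rhoPi (x : ι → ℝ) :
    HasSum (fun k : ι → ℤ => rhoPi (fun i => x i + k i)) 1 := by
  classical
  let t : ι → Finset ℤ := fun i => {-⌊x i⌋, -⌊x i⌋ - 1}
  have hsupp : ∀ (i : ι) (k : ℤ), k ∉ t i → tent (x i + k) = 0 := by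
    intro i k hk
    by_contra hne
    have habs := abs_lt_one_of_tent_ne_zero hne
    rw [abs_lt] at habs
    have hfl := Int.floor_le (x i)
    have hlt := Int.lt_floor_add_one (x i)
    simp only [t, Finset.mem_insert, Finset.mem_singleton, not_or] at hk
    have h1 : (-⌊x i⌋ - 2 : ℝ) < k := by linarith
    have h2 : (k : ℝ) < -⌊x i⌋ + 1 := by linarith
    have h1' : -⌊x i⌋ - 2 < k := by exact_mod_cast h1
    have h2' : k < -⌊x i⌋ + 1 := by exact_mod_cast h2
    omega
  have hone : ∀ i, ∑ k ∈ t i, tent (x i + k) = 1 := by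
    intro i
    have h : HasSum (fun k : ℤ => tent (x i + k)) (∑ k ∈ t i, tent (x i + k)) :=
      hasSum_sum_of_ne_finset_zero (hsupp i)
    exact h.unique (hasSum_tent (x i))
  have h0 : ∀ k : ι → ℤ, k ∉ Fintype.piFinset t → rhoPi (fun i => x i + k i) = 0 := by
    intro k hk
    rw [Fintype.mem_piFinset] at hk
    push Not at hk
    obtain ⟨i, hi⟩ := hk
    exact Finset.prod_eq_zero (Finset.mem_univ i) (hsupp i _ hi)
  have : HasSum (fun k : ι → ℤ => rhoPi (fun i => x i + k i))
      (∑ k ∈ Fintype.piFinset t, rhoPi (fun i => x i + k i)) :=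
    hasSum_sum_of_ne_finset_zero h0
  convert this using 1
  unfold rhoPi
  rw [← Finset.prod_univ_sum t (fun i k => tent (x i + k))]
  simp [hone]

omit [Fintype ι] in
theorem hasSum_prod_finite {T β : Type*} [Finite T] {g : β → ℝ} {a : ℝ} (hg : HasSum g a)
    (hg0 : ∀ b, 0 ≤ g b) :
    HasSum (fun y : T × β => g y.2) (Nat.card T * a) := by
  have : Fintype T := Fintype.ofFinite _
  have h1 : HasSum (fun _ : T => (1 : ℝ)) (Nat.card T) := by
    have := hasSum_fintype (fun _ : T => (1 : ℝ))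
    simpa [Nat.card_eq_fintype_card] using this
  have h4 : Summable (fun y : T × β => (1 : ℝ) * g y.2) :=
    h1.summable.mul_of_nonneg hg.summable (fun _ => zero_le_one) hg0
  have h3 := h1.mul hg h4
  simpa using h3

end

end Fermat.Agent.S14.AN2
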