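import Fermat.Agent.S14.AN2.GDefs

set_option autoImplicit false

/-!
# [T4] Unfolding: the smoothed lattice sum over `J` is `w * N(J)^(-s) * ζ(s, [J]⁻¹)`
-/

namespace Fermat.Agent.S14.AN2

open NumberField NumberField.Units NumberField.Units.dirichletUnitTheorem
  NumberField.mixedEmbedding NumberField.InfinitePlace Module
open scoped nonZeroDivisors

noncomputable section

variable (K : Type*) [Field K] [NumberField K]

theorem unfold_gO_zero (s : ℝ) (hs : s ≠ 0) : gO K s 0 = 0 := by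
  unfold gO g
  rw [show ((0 : 𝓞 K) : K) = 0 from rfl, map_zero, map_zero, Real.zero_rpow (neg_ne_zero.mpr hs),
    mul_zero]

theorem unfold_norm_int (a : 𝓞 K) :
    mixedEmbedding.norm (mixedEmbedding K (a : K)) = (Ideal.absNorm (Ideal.span {a}) : ℝ) := by
  rw [mixedEmbedding.norm_eq_norm, Ideal.absNorm_span_singleton, ← Algebra.coe_norm_int,
    Nat.cast_natAbs]
  push_cast
  rfl

theorem unfold_gO_unit_mul (s : ℝ) (u : (𝓞 K)ˣ) (a : 𝓞 K) :
    gO K s ((u : 𝓞 K) * a) = phi K (u • mixedEmbedding K (a : K)) *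
      ((Ideal.absNorm (Ideal.span {a}) : ℝ)) ^ (-s) := by
  unfold gO g
  have h : mixedEmbedding K (((u : 𝓞 K) * a : 𝓞 K) : K) = u • mixedEmbedding K (a : K) := by
    rw [unitSMul_smul, ← map_mul]
    rfl
  rw [h, norm_unit_smul, unfold_norm_int]

/-- [T4] unfolding -/
theorem unfolding (hsum : ∀ s : ℝ, 1 < s → Summable fun I : (Ideal (𝓞 K))⁰ =>
      ((Ideal.absNorm (I : Ideal (𝓞 K)) : ℝ)) ^ (-s))
    (C : ClassGroup (𝓞 K)) (J : (Ideal (𝓞 K))⁰) (hJ : ClassGroup.mk0 J = C⁻¹) (s : ℝ) (hs : 1 < s) :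
    HasSum (fun a : (J : Ideal (𝓞 K)) => gO K s (a : 𝓞 K))
      ((torsionOrder K : ℝ) * ((Ideal.absNorm (J : Ideal (𝓞 K)) : ℝ)) ^ (-s) * partialZeta K C s) := by
  classical
  have hprinc : ∀ I : {I : (Ideal (𝓞 K))⁰ // ClassGroup.mk0 I = C},
      ∃ a : 𝓞 K, Ideal.span {a} = (I.1 : Ideal (𝓞 K)) * (J : Ideal (𝓞 K)) := by
    intro I
    have h1 : ClassGroup.mk0 (I.1 * J) = 1 := by
      rw [map_mul, I.2, hJ, mul_inv_cancel]
    rw [ClassGroup.mk0_eq_one_iff] at h1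
    obtain ⟨a, ha⟩ := h1.principal
    exact ⟨a, by rw [Ideal.span, ← ha]; rfl⟩
  choose gen hgen using hprinc
  have hJ0 : (J : Ideal (𝓞 K)) ≠ 0 := nonZeroDivisors.coe_ne_zero J
  have hgen0 : ∀ I, gen I ≠ 0 := by
    intro I h0
    have := hgen I
    rw [h0, Ideal.span_singleton_eq_bot.mpr rfl] at this
    exact mul_ne_zero (nonZeroDivisors.coe_ne_zero I.1) hJ0 this.symm
  have hgenJ : ∀ I (u : (𝓞 K)ˣ), (u : 𝓞 K) * gen I ∈ (J : Ideal (𝓞 K)) := by
    intro I u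
    apply Ideal.mul_mem_left
    have : gen I ∈ Ideal.span {gen I} := Ideal.mem_span_singleton_self _
    rw [hgen I] at this
    exact (Ideal.mul_le_right (I := (I.1 : Ideal (𝓞 K))) (J := (J : Ideal (𝓞 K)))) this
  let Φ : {I : (Ideal (𝓞 K))⁰ // ClassGroup.mk0 I = C} × (𝓞 K)ˣ → (J : Ideal (𝓞 K)) :=
    fun p => ⟨(p.2 : 𝓞 K) * gen p.1, hgenJ p.1 p.2⟩
  have hspan : ∀ I (u : (𝓞 K)ˣ), Ideal.span {(u : 𝓞 K) * gen I} = (I.1 : Ideal (𝓞 K)) * J := by
    intro I u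
    rw [← hgen I, Ideal.span_singleton_mul_left_unit u.isUnit]
  have hΦinj : Function.Injective Φ := by
    rintro ⟨I, u⟩ ⟨I', u'⟩ h
    have h' : (u : 𝓞 K) * gen I = (u' : 𝓞 K) * gen I' := congrArg Subtype.val h
    have h1 : (I.1 : Ideal (𝓞 K)) * J = (I'.1 : Ideal (𝓞 K)) * J := by
      rw [← hspan I u, ← hspan I' u', h']
    have h2 : (I.1 : Ideal (𝓞 K)) = I'.1 := mul_right_cancel₀ hJ0 h1
    have h3 : I = I' := Subtype.ext (Subtype.ext h2)
    subst h3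
    have h4 : (u : 𝓞 K) = u' := mul_right_cancel₀ (hgen0 I) h'
    rw [Units.ext h4]
  have hΦrange : ∀ x ∉ Set.range Φ, gO K s ((x : (J : Ideal (𝓞 K))) : 𝓞 K) = 0 := by
    intro x hx
    by_cases hx0 : (x : 𝓞 K) = 0
    · rw [hx0]; exact unfold_gO_zero K s (by linarith)
    · exfalso
      apply hx
      have h1 : (J : Ideal (𝓞 K)) ∣ Ideal.span {(x : 𝓞 K)} := by
        rw [Ideal.dvd_iff_le, Ideal.span_singleton_le_iff_mem]
        exact x.2
      obtain ⟨I, hI⟩ := h1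
      have hI0 : I ≠ 0 := by
        rintro rfl
        rw [mul_zero] at hI
        exact hx0 (Ideal.span_singleton_eq_bot.mp hI)
      let I' : (Ideal (𝓞 K))⁰ := ⟨I, mem_nonZeroDivisors_of_ne_zero hI0⟩
      have hI'C : ClassGroup.mk0 I' = C := by
        have h2 : ClassGroup.mk0 (J * I') = 1 := by
          rw [ClassGroup.mk0_eq_one_iff]
          refine ⟨⟨(x : 𝓞 K), ?_⟩⟩
          exact hI.symm
        rw [map_mul, hJ] at h2
        exact (inv_mul_eq_one.mp h2).symm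
      have h3 : Ideal.span {(x : 𝓞 K)} = Ideal.span {gen ⟨I', hI'C⟩} := by
        rw [hgen, hI, mul_comm]
      rw [Ideal.span_singleton_eq_span_singleton] at h3
      obtain ⟨u, hu⟩ := h3.symm
      refine ⟨(⟨I', hI'C⟩, u), Subtype.ext ?_⟩
      show (u : 𝓞 K) * gen ⟨I', hI'C⟩ = x
      rw [mul_comm]; exact hu
  rw [← hΦinj.hasSum_iff hΦrange]
  set NJ : ℝ := (Ideal.absNorm (J : Ideal (𝓞 K)) : ℝ) with hNJ
  have hf_eq : ((fun a : (J : Ideal (𝓞 K)) => gO K s (a : 𝓞 K)) ∘ Φ) =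
      fun p => phi K (p.2 • mixedEmbedding K (gen p.1 : K)) *
        (((Ideal.absNorm (p.1.1 : Ideal (𝓞 K)) : ℝ)) ^ (-s) * NJ ^ (-s)) := by
    funext p
    show gO K s ((p.2 : 𝓞 K) * gen p.1) = _
    rw [unfold_gO_unit_mul, hgen, map_mul, Nat.cast_mul,
      Real.mul_rpow (Nat.cast_nonneg _) (Nat.cast_nonneg _)]
  rw [hf_eq]
  have hnorm0 : ∀ I, mixedEmbedding.norm (mixedEmbedding K (gen I : K)) ≠ 0 := by
    intro I
    rw [unfold_norm_int]
    have : Ideal.absNorm (Ideal.span {gen I}) ≠ 0 := by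
      rw [Ne, Ideal.absNorm_eq_zero_iff, Ideal.span_singleton_eq_bot]
      exact hgen0 I
    exact_mod_cast this
  have inner : ∀ I : {I : (Ideal (𝓞 K))⁰ // ClassGroup.mk0 I = C},
      HasSum (fun u : (𝓞 K)ˣ => phi K (u • mixedEmbedding K (gen I : K)) *
        (((Ideal.absNorm (I.1 : Ideal (𝓞 K)) : ℝ)) ^ (-s) * NJ ^ (-s)))
        ((torsionOrder K : ℝ) * (((Ideal.absNorm (I.1 : Ideal (𝓞 K)) : ℝ)) ^ (-s) * NJ ^ (-s))) :=
    fun I => (hasSum_phi_units K (hnorm0 I)).mul_right _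
  have hsub : Summable fun I : {I : (Ideal (𝓞 K))⁰ // ClassGroup.mk0 I = C} =>
      ((Ideal.absNorm (I.1 : Ideal (𝓞 K)) : ℝ)) ^ (-s) :=
    (hsum s hs).subtype _
  have outer : HasSum (fun I : {I : (Ideal (𝓞 K))⁰ // ClassGroup.mk0 I = C} =>
      (torsionOrder K : ℝ) * (((Ideal.absNorm (I.1 : Ideal (𝓞 K)) : ℝ)) ^ (-s) * NJ ^ (-s)))
      ((torsionOrder K : ℝ) * NJ ^ (-s) * partialZeta K C s) := by
    have h := (hsub.hasSum.mul_right (NJ ^ (-s))).mul_left (torsionOrder K : ℝ)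
    have e : (torsionOrder K : ℝ) * NJ ^ (-s) * partialZeta K C s =
        (torsionOrder K : ℝ) * ((∑' I : {I : (Ideal (𝓞 K))⁰ // ClassGroup.mk0 I = C},
          ((Ideal.absNorm (I.1 : Ideal (𝓞 K)) : ℝ)) ^ (-s)) * NJ ^ (-s)) := by
      unfold partialZeta
      ring
    rw [e]
    exact h
  have hjoint : Summable fun p : {I : (Ideal (𝓞 K))⁰ // ClassGroup.mk0 I = C} × (𝓞 K)ˣ =>
      phi K (p.2 • mixedEmbedding K (gen p.1 : K)) *
        (((Ideal.absNorm (p.1.1 : Ideal (𝓞 K)) : ℝ)) ^ (-s) * NJ ^ (-s)) := by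
    rw [summable_prod_of_nonneg]
    · refine ⟨fun I => (inner I).summable, ?_⟩
      have : (fun I : {I : (Ideal (𝓞 K))⁰ // ClassGroup.mk0 I = C} =>
          ∑' u : (𝓞 K)ˣ, phi K (u • mixedEmbedding K (gen I : K)) *
            (((Ideal.absNorm (I.1 : Ideal (𝓞 K)) : ℝ)) ^ (-s) * NJ ^ (-s))) =
          fun I => (torsionOrder K : ℝ) *
            (((Ideal.absNorm (I.1 : Ideal (𝓞 K)) : ℝ)) ^ (-s) * NJ ^ (-s)) := by
        funext I
        exact (inner I).tsum_eq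
      rw [this]
      exact outer.summable
    · intro p
      exact mul_nonneg (phi_nonneg K _) (mul_nonneg (Real.rpow_nonneg (Nat.cast_nonneg _) _)
        (Real.rpow_nonneg (Nat.cast_nonneg _) _))
  have h1 := hjoint.hasSum.prod_fiberwise inner
  rw [← h1.unique outer]
  exact hjoint.hasSum

end

end Fermat.Agent.S14.AN2
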